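/-
S56 / [TW-GRP], Dickson-free half (helper24, prefix `s56g_`).  Mathlib only.

Abstract setting: a group `Γ` acting on a `2`-dimensional `K`-space `V` through
`ρ : Γ →* Module.End K V`.  `s56g_Irr ρ H` is the shape of irreducibility used by the frozen
`hTW` / `IsIrreducible` (no `H`-stable proper nonzero subspace).

Standing hypotheses of the main lemmas: `Γ` acts irreducibly and so does every subgroup of index `2`.
This file: basic lemmas, `(P)` (no pair of lines permuted by `Γ`), `(R)` (eigenline dichotomy) and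
`(L)` (no non-scalar semi-invariant endomorphism).
-/
import Mathlib

set_option autoImplicit false

namespace Fermat.Agent.S56

open Polynomial Module

section setup

variable {Γ : Type*} [Group Γ] {K : Type*} [Field K] {V : Type*} [AddCommGroup V] [Module K V]

/-- `H` acts irreducibly through `ρ` (the shape of the frozen `hTW` / `IsIrreducible`). -/
def s56g_Irr (ρ : Γ →* Module.End K V) (H : Subgroup Γ) : Prop :=
  ∀ W : Submodule K V, (∀ σ ∈ H, ∀ x ∈ W, ρ σ x ∈ W) → W = ⊥ ∨ W = ⊤

variable (ρ : Γ →* Module.End K V)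

lemma s56g_inv_apply (g : Γ) (x : V) : ρ g⁻¹ (ρ g x) = x := by
  have : ρ g⁻¹ * ρ g = 1 := by rw [← map_mul, inv_mul_cancel, map_one]
  exact congrArg (fun f : Module.End K V => f x) this

lemma s56g_apply_inv (g : Γ) (x : V) : ρ g (ρ g⁻¹ x) = x := by
  have := s56g_inv_apply ρ g⁻¹ x
  rwa [inv_inv] at this

lemma s56g_apply_ne_zero (g : Γ) {x : V} (hx : x ≠ 0) : ρ g x ≠ 0 := by
  intro h
  apply hx
  rw [← s56g_inv_apply ρ g x, h, map_zero]

lemma s56g_mul_apply (g h : Γ) (x : V) : ρ (g * h) x = ρ g (ρ h x) := by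
  rw [map_mul]; rfl

/-- a nonzero vector that is an eigenvector of every element of `H` contradicts irreducibility of
`H` in dimension `2`. -/
theorem s56g_no_common_eigenvector (h2 : finrank K V = 2) {H : Subgroup Γ} (hH : s56g_Irr ρ H)
    {v : V} (hv : v ≠ 0) (hev : ∀ σ ∈ H, ∃ c : K, ρ σ v = c • v) : False := by
  have hst : ∀ σ ∈ H, ∀ x ∈ (K ∙ v), ρ σ x ∈ (K ∙ v) := by
    intro σ hσ x hx
    obtain ⟨a, rfl⟩ := Submodule.mem_span_singleton.mp hx
    obtain ⟨c, hc⟩ := hev σ hσ
    rw [map_smul, hc, smul_smul]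
    exact Submodule.smul_mem _ _ (Submodule.mem_span_singleton_self v)
  rcases hH _ hst with h | h
  · exact hv ((Submodule.span_singleton_eq_bot).mp h)
  · have h1 : finrank K (K ∙ v) = 1 := finrank_span_singleton hv
    rw [h, finrank_top, h2] at h1
    omega

/-- the subgroup of the elements having `v` as an eigenvector. -/
def s56g_stab (v : V) (hv : v ≠ 0) : Subgroup Γ where
  carrier := {g | ∃ c : K, ρ g v = c • v}
  one_mem' := ⟨1, by rw [map_one, one_smul]; rfl⟩
  mul_mem' := by
    rintro g h ⟨c, hc⟩ ⟨d, hd⟩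
    exact ⟨d * c, by rw [s56g_mul_apply, hd, map_smul, hc, smul_smul]⟩
  inv_mem' := by
    rintro g ⟨c, hc⟩
    have hc0 : c ≠ 0 := by
      rintro rfl
      rw [zero_smul] at hc
      exact s56g_apply_ne_zero ρ g hv hc
    refine ⟨c⁻¹, ?_⟩
    have := congrArg (ρ g⁻¹) hc
    rw [s56g_inv_apply, map_smul] at this
    show ρ g⁻¹ v = c⁻¹ • v
    rw [eq_inv_smul_iff₀ hc0]
    exact this.symm

lemma s56g_mem_stab {v : V} (hv : v ≠ 0) {g : Γ} :
    g ∈ s56g_stab ρ v hv ↔ ∃ c : K, ρ g v = c • v := Iff.rfl

/-- **(P)** under the standing hypotheses there is no "pair of lines permuted by `Γ`":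
a nonzero `v` such that every `ρ g v` is proportional to `v` or to a fixed `w`. -/
theorem s56g_no_pair (h2 : finrank K V = 2) (hΓ : s56g_Irr ρ ⊤)
    (hidx : ∀ H : Subgroup Γ, H.index = 2 → s56g_Irr ρ H) {v w : V} (hv : v ≠ 0)
    (h : ∀ g : Γ, (∃ c : K, ρ g v = c • v) ∨ (∃ c : K, ρ g v = c • w)) : False := by
  set H := s56g_stab ρ v hv with hH
  by_cases htop : H = ⊤
  · refine s56g_no_common_eigenvector ρ h2 hΓ hv (fun σ _ => ?_)
    have : σ ∈ H := by rw [htop]; trivial
    exact this
  · obtain ⟨a, ha⟩ : ∃ a, a ∉ H := by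
      by_contra hcon
      push Not at hcon
      exact htop (eq_top_iff.mpr fun x _ => hcon x)
    have hidx2 : H.index = 2 := by
      rw [Subgroup.index_eq_two_iff_exists_notMem_and]
      refine ⟨a, ha, fun b => ?_⟩
      by_cases hb : b ∈ H
      · exact Or.inr hb
      · left
        rcases h b with hb1 | ⟨cb, hcb⟩
        · exact absurd hb1 hb
        · have hcb0 : cb ≠ 0 := by
            rintro rfl
            rw [zero_smul] at hcb
            exact s56g_apply_ne_zero ρ b hv hcb
          rcases h (b * a) with hba | ⟨c, hc⟩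
          · exact hba
          · exfalso
            apply ha
            refine ⟨c * cb⁻¹, ?_⟩
            have h1 : ρ b (ρ a v) = ρ b ((c * cb⁻¹) • v) := by
              rw [← s56g_mul_apply, hc, map_smul, hcb, smul_smul, mul_assoc,
                inv_mul_cancel₀ hcb0, mul_one]
            have := congrArg (ρ b⁻¹) h1
            rwa [s56g_inv_apply, s56g_inv_apply] at this
    exact s56g_no_common_eigenvector ρ h2 (hidx H hidx2) hv (fun σ hσ => hσ)

/-- two independent vectors span a `2`-dimensional space. -/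
theorem s56g_span_of_indep (h2 : finrank K V = 2) {w w' : V}
    (hli : ∀ s t : K, s • w + t • w' = 0 → s = 0 ∧ t = 0) (u : V) :
    ∃ a b : K, u = a • w + b • w' := by
  have hfd : FiniteDimensional K V := FiniteDimensional.of_finrank_pos (by omega)
  have hli' : LinearIndependent K ![w, w'] := LinearIndependent.pair_iff.mpr hli
  have hsp := hli'.span_eq_top_of_card_eq_finrank' (by simp [h2])
  have hu : u ∈ Submodule.span K (Set.range ![w, w']) := by rw [hsp]; trivial
  have hr : Set.range ![w, w'] = {w, w'} := by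
    rw [Matrix.range_cons, Matrix.range_cons, Matrix.range_empty]
    ext x; simp [or_comm]
  rw [hr, Submodule.mem_span_pair] at hu
  obtain ⟨a, b, hab⟩ := hu
  exact ⟨a, b, hab.symm⟩

/-- independence of `w` and a vector `w'` not proportional to it. -/
theorem s56g_indep_of_not_smul {w w' : V} (hw : w ≠ 0) (hw' : ¬ ∃ c : K, w' = c • w) :
    ∀ s t : K, s • w + t • w' = 0 → s = 0 ∧ t = 0 := by
  intro s t hst
  have ht : t = 0 := by
    by_contra ht
    apply hw'
    refine ⟨-(t⁻¹ * s), ?_⟩
    have h1 : t • w' = -(s • w) := by rw [eq_neg_iff_add_eq_zero, add_comm]; exact hst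
    have h2 := congrArg (fun x => t⁻¹ • x) h1
    simp only [smul_smul, inv_mul_cancel₀ ht, one_smul, smul_neg] at h2
    rw [h2, neg_smul]
  refine ⟨?_, ht⟩
  rw [ht, zero_smul, add_zero] at hst
  exact (smul_eq_zero.mp hst).resolve_right hw

/-- **(R)** an endomorphism with two independent eigenvectors for distinct eigenvalues has no other
eigenline. -/
theorem s56g_eigen_dichotomy (h2 : finrank K V = 2) (T : Module.End K V) {w w' : V} {l m : K}
    (hw : T w = l • w) (hw' : T w' = m • w')
    (hli : ∀ s t : K, s • w + t • w' = 0 → s = 0 ∧ t = 0) (hne : l ≠ m) {u : V} {n : K}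
    (hu : T u = n • u) : (∃ c : K, u = c • w) ∨ (∃ c : K, u = c • w') := by
  obtain ⟨a, b, rfl⟩ := s56g_span_of_indep h2 hli u
  have h1 : (a * (l - n)) • w + (b * (m - n)) • w' = 0 := by
    have : T (a • w + b • w') - n • (a • w + b • w') = 0 := sub_eq_zero.mpr hu
    rw [map_add, map_smul, map_smul, hw, hw'] at this
    rw [← this]
    module
  obtain ⟨ha, hb⟩ := hli _ _ h1
  by_cases ha0 : a = 0
  · right; exact ⟨b, by rw [ha0, zero_smul, zero_add]⟩
  · left
    have hln : l = n := by
      rcases mul_eq_zero.mp ha with h | h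
      · exact absurd h ha0
      · exact sub_eq_zero.mp h
    have hb0 : b = 0 := by
      rcases mul_eq_zero.mp hb with h | h
      · exact h
      · exact absurd (hln.trans (sub_eq_zero.mp h).symm) hne
    exact ⟨a, by rw [hb0, zero_smul, add_zero]⟩

/-- an endomorphism with two independent eigenvectors for the same eigenvalue is scalar. -/
theorem s56g_scalar_of_two (h2 : finrank K V = 2) (T : Module.End K V) {w w' : V} {l : K}
    (hw : T w = l • w) (hw' : T w' = l • w')
    (hli : ∀ s t : K, s • w + t • w' = 0 → s = 0 ∧ t = 0) (x : V) : T x = l • x := by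
  obtain ⟨a, b, rfl⟩ := s56g_span_of_indep h2 hli x
  rw [map_add, map_smul, map_smul, hw, hw']
  module

/-- **(L)** under the standing hypotheses (over an algebraically closed field) there is no
non-scalar endomorphism `A` that is semi-invariant under `Γ`. -/
theorem s56g_no_semiinvariant [IsAlgClosed K] (h2 : finrank K V = 2) (hΓ : s56g_Irr ρ ⊤)
    (hidx : ∀ H : Subgroup Γ, H.index = 2 → s56g_Irr ρ H) (A : Module.End K V)
    (hA : ¬ ∃ c : K, ∀ x, A x = c • x)
    (hsemi : ∀ g : Γ, ∃ c : K, ∀ x, A (ρ g x) = c • ρ g (A x)) : False := by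
  have hfd : FiniteDimensional K V := FiniteDimensional.of_finrank_pos (by omega)
  have hnt : Nontrivial V := Module.nontrivial_of_finrank_pos (R := K) (by omega)
  obtain ⟨l, hl⟩ := Module.End.exists_eigenvalue A
  obtain ⟨w, hw⟩ := hl.exists_hasEigenvector
  have hw0 : w ≠ 0 := hw.2
  have hAw : A w = l • w := hw.apply_eq_smul
  have key : ∀ g : Γ, ∃ n : K, A (ρ g w) = n • ρ g w := by
    intro g
    obtain ⟨c, hc⟩ := hsemi g
    exact ⟨c * l, by rw [hc, hAw, map_smul, smul_smul]⟩
  by_cases huniq : ∀ (u : V) (n : K), u ≠ 0 → A u = n • u → ∃ c : K, u = c • w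
  · refine s56g_no_common_eigenvector ρ h2 hΓ hw0 (fun σ _ => ?_)
    obtain ⟨n, hn⟩ := key σ
    exact huniq _ n (s56g_apply_ne_zero ρ σ hw0) hn
  · push Not at huniq
    obtain ⟨u, n, hu0, hAu, hnot⟩ := huniq
    have hli := s56g_indep_of_not_smul hw0 (by push Not; exact hnot)
    by_cases hln : l = n
    · apply hA
      refine ⟨l, fun x => s56g_scalar_of_two h2 A hAw ?_ hli x⟩
      rw [hln]; exact hAu
    · refine s56g_no_pair ρ h2 hΓ hidx (v := w) (w := u) hw0 (fun g => ?_)
      obtain ⟨m, hm⟩ := key g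
      exact s56g_eigen_dichotomy h2 A hAw hAu hli hln hm

end setup

end Fermat.Agent.S56
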