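/-
S56 / [TW-GRP], Dickson-free half (helper24, prefix `s56g_`).  Mathlib only.

`(Q)`: the projective image of `Γ` is not abelian;  `(G1)` (Clifford): a subgroup `N` containing all
commutators of `Γ` still acts irreducibly.
-/
import Fermat.Agent.S56.Grp.Basic

set_option autoImplicit false

namespace Fermat.Agent.S56

open Polynomial Module

section clifford

variable {Γ : Type*} [Group Γ] {K : Type*} [Field K] {V : Type*} [AddCommGroup V] [Module K V]
variable (ρ : Γ →* Module.End K V)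

/-- **(Q)** under the standing hypotheses it is impossible that all commutators act as scalars. -/
theorem s56g_no_scalar_commutators [IsAlgClosed K] (h2 : finrank K V = 2) (hΓ : s56g_Irr ρ ⊤)
    (hidx : ∀ H : Subgroup Γ, H.index = 2 → s56g_Irr ρ H)
    (hcomm : ∀ g h : Γ, ∃ c : K, ∀ x, ρ (g * h * g⁻¹ * h⁻¹) x = c • x) : False := by
  have hnt : Nontrivial V := Module.nontrivial_of_finrank_pos (R := K) (by omega)
  by_cases hall : ∀ g : Γ, ∃ c : K, ∀ x, ρ g x = c • x
  · obtain ⟨v, hv⟩ := exists_ne (0 : V)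
    refine s56g_no_common_eigenvector ρ h2 hΓ hv (fun σ _ => ?_)
    obtain ⟨c, hc⟩ := hall σ
    exact ⟨c, hc v⟩
  · push Not at hall
    obtain ⟨g₁, hg₁⟩ := hall
    refine s56g_no_semiinvariant ρ h2 hΓ hidx (ρ g₁) (by push Not; exact hg₁) (fun h => ?_)
    obtain ⟨c, hc⟩ := hcomm g₁ h
    refine ⟨c, fun x => ?_⟩
    rw [← hc (ρ h (ρ g₁ x)), ← s56g_mul_apply, ← s56g_mul_apply, ← s56g_mul_apply]
    congr 2
    group

/-- a subgroup containing all commutators is normal. -/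
lemma s56g_conj_mem {N : Subgroup Γ} (hN : ∀ g h : Γ, g * h * g⁻¹ * h⁻¹ ∈ N) (g : Γ) {n : Γ}
    (hn : n ∈ N) : g⁻¹ * n * g ∈ N := by
  have h1 := hN g⁻¹ n
  have h2 : g⁻¹ * n * g = (g⁻¹ * n * g⁻¹⁻¹ * n⁻¹) * n := by group
  rw [h2]
  exact N.mul_mem h1 hn

/-- **(G1)** (Clifford) under the standing hypotheses a subgroup `N` containing all the commutators
of `Γ` acts irreducibly. -/
theorem s56g_clifford [IsAlgClosed K] (h2 : finrank K V = 2) (hΓ : s56g_Irr ρ ⊤)
    (hidx : ∀ H : Subgroup Γ, H.index = 2 → s56g_Irr ρ H) (N : Subgroup Γ)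
    (hN : ∀ g h : Γ, g * h * g⁻¹ * h⁻¹ ∈ N) : s56g_Irr ρ N := by
  intro W hW
  by_contra hne
  push Not at hne
  obtain ⟨hbot, htop⟩ := hne
  obtain ⟨v, hvW, hv⟩ := Submodule.exists_mem_ne_zero_of_ne_bot hbot
  -- `W` is the line through `v`
  have hline : ∀ x ∈ W, ∃ c : K, x = c • v := by
    intro x hx
    by_contra hnot
    apply htop
    have hli := s56g_indep_of_not_smul hv hnot
    refine eq_top_iff.mpr (fun u _ => ?_)
    obtain ⟨a, b, rfl⟩ := s56g_span_of_indep h2 hli u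
    exact W.add_mem (W.smul_mem a hvW) (W.smul_mem b hx)
  have hχ : ∀ n ∈ N, ∃ c : K, ρ n v = c • v := fun n hn => hline _ (hW n hn v hvW)
  -- every translate of `v` is again a common eigenvector of `N`
  have htr : ∀ (g : Γ), ∀ n ∈ N, ∃ c : K, ρ n (ρ g v) = c • ρ g v := by
    intro g n hn
    obtain ⟨c, hc⟩ := hχ _ (s56g_conj_mem hN g hn)
    refine ⟨c, ?_⟩
    rw [← map_smul, ← hc, ← s56g_mul_apply, ← s56g_mul_apply]
    congr 2
    group
  by_cases hB : ∀ g : Γ, ∃ c : K, ρ g v = c • v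
  · exact s56g_no_common_eigenvector ρ h2 hΓ hv (fun σ _ => hB σ)
  · push Not at hB
    obtain ⟨g₀, hg₀⟩ := hB
    have hli := s56g_indep_of_not_smul hv (by push Not; exact hg₀)
    by_cases hchar : ∃ n₀ ∈ N, ∃ c c' : K, ρ n₀ v = c • v ∧ ρ n₀ (ρ g₀ v) = c' • ρ g₀ v ∧ c ≠ c'
    · obtain ⟨n₀, hn₀, c, c', h1, h1', hcc⟩ := hchar
      refine s56g_no_pair ρ h2 hΓ hidx (v := v) (w := ρ g₀ v) hv (fun g => ?_)
      obtain ⟨m, hm⟩ := htr g n₀ hn₀
      exact s56g_eigen_dichotomy h2 (ρ n₀) h1 h1' hli hcc hm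
    · push Not at hchar
      -- `N` acts by scalars, hence so do all commutators
      refine s56g_no_scalar_commutators ρ h2 hΓ hidx (fun g h => ?_)
      have hn := hN g h
      obtain ⟨c, hc⟩ := hχ _ hn
      obtain ⟨c', hc'⟩ := htr g₀ _ hn
      have hcc := hchar _ hn c c' hc hc'
      refine ⟨c, fun x => s56g_scalar_of_two h2 _ hc ?_ hli x⟩
      rw [hcc]; exact hc'

end clifford

end Fermat.Agent.S56
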