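/-
S56 / [TW-GRP], Dickson-free half (helper24, prefix `s56g_`).  Mathlib only.

`(G2)`: a subgroup `N` containing all commutators of `Γ` contains an element with two distinct
eigenvalues.  (Otherwise every element of `N` is scalar times unipotent and `N` has a common
eigenvector, contradicting Clifford `(G1)`.)
-/
import Fermat.Agent.S56.Grp.Clifford

set_option autoImplicit false

namespace Fermat.Agent.S56

open Polynomial Module

section matrix

variable {K : Type*} [Field K]

/-- comparing the coefficients of two monic quadratics. -/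
lemma s56g_quad_coeff {t d t' d' : K}
    (h : (X : K[X]) ^ 2 - C t * X + C d = X ^ 2 - C t' * X + C d') : t = t' ∧ d = d' := by
  have h0 := congrArg (fun p : K[X] => p.coeff 0) h
  have h1 := congrArg (fun p : K[X] => p.coeff 1) h
  simp [coeff_X_pow, coeff_X, coeff_C] at h0 h1
  exact ⟨h1, h0⟩

/-- a `2 × 2` matrix whose characteristic polynomial is a square `(X - γ)²` satisfies
`tr² = 4 det`. -/
lemma s56g_disc_of_charpoly (M : Matrix (Fin 2) (Fin 2) K) {γ : K}
    (h : M.charpoly = (X - C γ) ^ 2) : M.trace ^ 2 = 4 * M.det := by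
  have hexp : (X - C γ : K[X]) ^ 2 = X ^ 2 - C (2 * γ) * X + C (γ ^ 2) := by
    rw [C_mul, C_pow, C_ofNat]; ring
  rw [Matrix.charpoly_fin_two, hexp] at h
  obtain ⟨ht, hd⟩ := s56g_quad_coeff h
  rw [ht, hd]; ring

/-- matrix core of `(G2)`: if `M`, `T₀ M`, `T₀² M` all have a double eigenvalue, where `T₀` is a
nontrivial Jordan block, then `M` is upper triangular. -/
lemma s56g_mat_core (h2ne : (2 : K) ≠ 0) {α₀ : K} (hα₀ : α₀ ≠ 0)
    (M T₀ : Matrix (Fin 2) (Fin 2) K) (hT₀ : T₀ = !![α₀, 1; 0, α₀])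
    (h1 : M.trace ^ 2 = 4 * M.det) (h2 : (T₀ * M).trace ^ 2 = 4 * (T₀ * M).det)
    (h3 : (T₀ * (T₀ * M)).trace ^ 2 = 4 * (T₀ * (T₀ * M)).det) : M 1 0 = 0 := by
  subst hT₀
  simp only [Matrix.trace_fin_two, Matrix.det_fin_two, Matrix.mul_apply, Fin.sum_univ_two,
    Matrix.of_apply, Matrix.cons_val', Matrix.cons_val_zero, Matrix.cons_val_one,
    Matrix.cons_val_fin_one] at h1 h2 h3
  generalize M 0 0 = a at *
  generalize M 0 1 = b at *
  generalize M 1 0 = c at *
  generalize M 1 1 = d at *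
  by_contra hc
  have hE2 : c * (2 * α₀ * (a + d) + c) = 0 := by linear_combination h2 - α₀ ^ 2 * h1
  have hE3 : (2 * 2 * α₀ ^ 2) * (c * (α₀ * (a + d) + c)) = 0 := by
    linear_combination h3 - α₀ ^ 4 * h1
  have hP : 2 * α₀ * (a + d) + c = 0 := (mul_eq_zero.mp hE2).resolve_left hc
  have h4 : (2 * 2 * α₀ ^ 2 : K) ≠ 0 := mul_ne_zero (mul_ne_zero h2ne h2ne) (pow_ne_zero 2 hα₀)
  have hQ : α₀ * (a + d) + c = 0 :=
    (mul_eq_zero.mp ((mul_eq_zero.mp hE3).resolve_left h4)).resolve_left hc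
  apply hc
  linear_combination 2 * hQ - hP

end matrix

section regular

variable {Γ : Type*} [Group Γ] {K : Type*} [Field K] {V : Type*} [AddCommGroup V] [Module K V]
variable (ρ : Γ →* Module.End K V)

/-- **(G2)** under the standing hypotheses (`K` algebraically closed, `2 ≠ 0`), a subgroup `N`
containing all the commutators of `Γ` contains an element whose characteristic polynomial is not a
square `(X - γ)²`. -/
theorem s56g_exists_regular [IsAlgClosed K] [FiniteDimensional K V] (h2 : finrank K V = 2) (h2ne : (2 : K) ≠ 0)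
    (hΓ : s56g_Irr ρ ⊤) (hidx : ∀ H : Subgroup Γ, H.index = 2 → s56g_Irr ρ H) (N : Subgroup Γ)
    (hN : ∀ g h : Γ, g * h * g⁻¹ * h⁻¹ ∈ N) :
    ∃ σ ∈ N, ¬ ∃ γ : K, LinearMap.charpoly (ρ σ) = (X - C γ) ^ 2 := by
  by_contra hcon
  push Not at hcon
  have hnt : Nontrivial V := Module.nontrivial_of_finrank_pos (R := K) (by omega)
  have hirrN := s56g_clifford ρ h2 hΓ hidx N hN
  by_cases hall : ∀ n ∈ N, ∃ c : K, ∀ x, ρ n x = c • x
  · obtain ⟨v, hv⟩ := exists_ne (0 : V)
    refine s56g_no_common_eigenvector ρ h2 hirrN hv (fun σ hσ => ?_)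
    obtain ⟨c, hc⟩ := hall σ hσ
    exact ⟨c, hc v⟩
  · push Not at hall
    obtain ⟨n₀, hn₀, hns⟩ := hall
    obtain ⟨γ₀, hγ₀⟩ := hcon n₀ hn₀
    -- Cayley–Hamilton: `(ρ n₀ - γ₀)² = 0`
    have hCH := LinearMap.aeval_self_charpoly (ρ n₀)
    rw [hγ₀] at hCH
    simp only [map_pow, map_sub, aeval_X, aeval_C] at hCH
    set ν : Module.End K V := ρ n₀ - algebraMap K (Module.End K V) γ₀ with hν
    have hνx : ∀ x, ν x = ρ n₀ x - γ₀ • x := by
      intro x; rw [hν, LinearMap.sub_apply, Module.algebraMap_end_apply]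
    have hν2 : ∀ x, ν (ν x) = 0 := by
      intro x
      have := congrArg (fun f : Module.End K V => f x) hCH
      simpa [pow_two] using this
    obtain ⟨e₂, he₂⟩ : ∃ e₂, ν e₂ ≠ 0 := by
      by_contra hno
      push Not at hno
      obtain ⟨x, hx⟩ := hns γ₀
      apply hx
      have := hno x
      rw [hνx, sub_eq_zero] at this
      exact this
    set e₁ := ν e₂ with he₁
    have hT1 : ρ n₀ e₁ = γ₀ • e₁ := by
      have := hν2 e₂
      rw [← he₁, hνx, sub_eq_zero] at this
      exact this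
    have hT2 : ρ n₀ e₂ = γ₀ • e₂ + e₁ := by
      rw [he₁, hνx]; abel
    have hγ₀0 : γ₀ ≠ 0 := by
      rintro rfl
      rw [zero_smul] at hT1
      exact s56g_apply_ne_zero ρ n₀ he₂ hT1
    have hli : ∀ s t : K, s • e₁ + t • e₂ = 0 → s = 0 ∧ t = 0 := by
      intro s t hst
      have h1 := congrArg ν hst
      rw [map_add, map_smul, map_smul, map_zero, hν2 e₂, smul_zero, zero_add, ← he₁] at h1
      have ht : t = 0 := (smul_eq_zero.mp h1).resolve_right he₂
      rw [ht, zero_smul, add_zero] at hst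
      exact ⟨(smul_eq_zero.mp hst).resolve_right he₂, ht⟩
    let b : Basis (Fin 2) K V :=
      basisOfLinearIndependentOfCardEqFinrank (LinearIndependent.pair_iff.mpr hli) (by simp [h2])
    have hb : ⇑b = ![e₁, e₂] := coe_basisOfLinearIndependentOfCardEqFinrank _ _
    have hb0 : b 0 = e₁ := by rw [hb]; rfl
    have hb1 : b 1 = e₂ := by rw [hb]; rfl
    have hMat0 : LinearMap.toMatrix b b (ρ n₀) = !![γ₀, 1; 0, γ₀] := by
      have h0 : ρ n₀ (b 0) = γ₀ • b 0 := by rw [hb0]; exact hT1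
      have h1 : ρ n₀ (b 1) = γ₀ • b 1 + b 0 := by rw [hb0, hb1]; exact hT2
      ext i j
      fin_cases i <;> fin_cases j <;>
        simp [LinearMap.toMatrix_apply, h0, h1]
    have hdisc : ∀ σ ∈ N, (LinearMap.toMatrix b b (ρ σ)).trace ^ 2
        = 4 * (LinearMap.toMatrix b b (ρ σ)).det := by
      intro σ hσ
      obtain ⟨γ, hγ⟩ := hcon σ hσ
      exact s56g_disc_of_charpoly _ (by rw [LinearMap.charpoly_toMatrix]; exact hγ)
    -- every element of `N` fixes the line through `e₁`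
    refine s56g_no_common_eigenvector ρ h2 hirrN (v := e₁) he₂ (fun σ hσ => ?_)
    have hcore : LinearMap.toMatrix b b (ρ σ) 1 0 = 0 := by
      refine s56g_mat_core h2ne hγ₀0 _ _ hMat0 (hdisc σ hσ) ?_ ?_
      · rw [← LinearMap.toMatrix_mul, ← map_mul]
        exact hdisc _ (N.mul_mem hn₀ hσ)
      · rw [← LinearMap.toMatrix_mul, ← LinearMap.toMatrix_mul, ← map_mul, ← map_mul]
        exact hdisc _ (N.mul_mem hn₀ (N.mul_mem hn₀ hσ))
    rw [LinearMap.toMatrix_apply, hb0] at hcore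
    refine ⟨b.repr (ρ σ e₁) 0, ?_⟩
    have hsum := b.sum_repr (ρ σ e₁)
    rw [Fin.sum_univ_two, hcore, zero_smul, add_zero, hb0] at hsum
    exact hsum.symm

end regular

end Fermat.Agent.S56
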