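/-
S56 / [TW-GRP], Dickson-free half (helper24, prefix `s56g_`).  Mathlib only.

`(G3)`: irreducibility of `ad⁰` (trace-zero endomorphisms under conjugation), over ANY field `k`
with `2 ≠ 0`, from the single input `s56g_NoSemi ρ` ("no non-scalar semi-invariant endomorphism"),
which is `(L)` over an algebraically closed field and descends (see `Descent.lean`).
-/
import Fermat.Agent.S56.Grp.Regular

set_option autoImplicit false

namespace Fermat.Agent.S56

open Polynomial Module

section ad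

variable {Γ : Type*} [Group Γ] {k : Type*} [Field k] {V : Type*} [AddCommGroup V] [Module k V]
variable (ρ : Γ →* Module.End k V)

/-- "no non-scalar endomorphism is semi-invariant under `Γ`" (conclusion of `(L)`). -/
def s56g_NoSemi : Prop :=
  ∀ A : Module.End k V, (¬ ∃ c : k, ∀ x, A x = c • x) →
    (∀ g : Γ, ∃ c : k, ∀ x, A (ρ g x) = c • ρ g (A x)) → False

theorem s56g_noSemi_of_algClosed [IsAlgClosed k] (h2 : finrank k V = 2) (hΓ : s56g_Irr ρ ⊤)
    (hidx : ∀ H : Subgroup Γ, H.index = 2 → s56g_Irr ρ H) : s56g_NoSemi ρ :=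
  fun A hA hsemi => s56g_no_semiinvariant ρ h2 hΓ hidx A hA hsemi

/-- a non-scalar endomorphism of a plane has a cyclic vector. -/
theorem s56g_exists_cyclic (h2 : finrank k V = 2) (A : Module.End k V)
    (hA : ¬ ∃ c : k, ∀ x, A x = c • x) :
    ∃ v : V, ∀ s t : k, s • v + t • A v = 0 → s = 0 ∧ t = 0 := by
  by_contra hno
  push Not at hno
  -- every nonzero vector is an eigenvector
  have hev : ∀ v : V, v ≠ 0 → ∃ c : k, A v = c • v := by
    intro v hv
    by_contra hc
    obtain ⟨s, t, hst, hne⟩ := hno v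
    have := s56g_indep_of_not_smul hv hc s t hst
    exact hne this.1 this.2
  have hfd : FiniteDimensional k V := FiniteDimensional.of_finrank_pos (by omega)
  let b : Basis (Fin 2) k V := Module.finBasisOfFinrankEq k V h2
  have hli : ∀ s t : k, s • b 0 + t • b 1 = 0 → s = 0 ∧ t = 0 := by
    have h := b.linearIndependent
    have hb : ⇑b = ![b 0, b 1] := by
      ext i; fin_cases i <;> rfl
    rw [hb] at h
    exact LinearIndependent.pair_iff.mp h
  obtain ⟨c₀, hc₀⟩ := hev (b 0) (b.ne_zero 0)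
  obtain ⟨c₁, hc₁⟩ := hev (b 1) (b.ne_zero 1)
  have hsum0 : b 0 + b 1 ≠ 0 := by
    intro h
    have := hli 1 1 (by rw [one_smul, one_smul]; exact h)
    exact one_ne_zero this.1
  obtain ⟨c₂, hc₂⟩ := hev (b 0 + b 1) hsum0
  rw [map_add, hc₀, hc₁, smul_add] at hc₂
  have h3 := hli (c₀ - c₂) (c₁ - c₂) (by
    have : (c₀ - c₂) • b 0 + (c₁ - c₂) • b 1
        = (c₀ • b 0 + c₁ • b 1) - (c₂ • b 0 + c₂ • b 1) := by module
    rw [this, hc₂, sub_self])
  have h01 : c₀ = c₁ := by
    rw [sub_eq_zero.mp h3.1, sub_eq_zero.mp h3.2]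
  apply hA
  exact ⟨c₀, fun x => s56g_scalar_of_two h2 A hc₀ (by rw [h01]; exact hc₁) hli x⟩

/-- a nonzero trace-zero endomorphism of a plane is not scalar (`2 ≠ 0`). -/
theorem s56g_not_scalar_of_trace_zero [FiniteDimensional k V] (h2 : finrank k V = 2)
    (h2ne : (2 : k) ≠ 0) {A : Module.End k V} (hA0 : A ≠ 0) (htr : LinearMap.trace k V A = 0) :
    ¬ ∃ c : k, ∀ x, A x = c • x := by
  rintro ⟨c, hc⟩
  have hA : A = c • (1 : Module.End k V) := by
    ext x; rw [hc]; rfl
  rw [hA, map_smul, LinearMap.trace_one, h2, smul_eq_mul] at htr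
  have hc0 : c = 0 := by
    rcases mul_eq_zero.mp htr with h | h
    · exact h
    · exact absurd (by exact_mod_cast h) h2ne
  apply hA0
  rw [hA, hc0, zero_smul]

/-- centraliser of a non-scalar endomorphism of a plane. -/
theorem s56g_centralizer (h2 : finrank k V = 2) {A B : Module.End k V}
    (hA : ¬ ∃ c : k, ∀ x, A x = c • x) (hcomm : A * B = B * A) :
    ∃ x y : k, B = x • (1 : Module.End k V) + y • A := by
  obtain ⟨v, hli⟩ := s56g_exists_cyclic h2 A hA
  obtain ⟨x, y, hxy⟩ := s56g_span_of_indep h2 hli (B v)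
  refine ⟨x, y, ?_⟩
  set D : Module.End k V := B - (x • (1 : Module.End k V) + y • A) with hD
  have hDv : D v = 0 := by
    rw [hD, LinearMap.sub_apply, LinearMap.add_apply, LinearMap.smul_apply, LinearMap.smul_apply,
      Module.End.one_apply, hxy, sub_self]
  have hDA : D * A = A * D := by
    rw [hD, sub_mul, mul_sub, add_mul, mul_add, smul_mul_assoc, smul_mul_assoc, mul_smul_comm,
      mul_smul_comm, one_mul, mul_one, hcomm]
  have hDAv : D (A v) = 0 := by
    have := congrArg (fun f : Module.End k V => f v) hDA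
    simp only [Module.End.mul_apply] at this
    rw [this, hDv, map_zero]
  have hD0 : D = 0 := by
    ext u
    have := s56g_scalar_of_two h2 D (l := 0) (by rw [hDv, zero_smul]) (by rw [hDAv, zero_smul])
      hli u
    rw [this, zero_smul]; rfl
  exact sub_eq_zero.mp hD0

/-- dimension of `ad⁰`. -/
theorem s56g_finrank_ad [FiniteDimensional k V] (h2 : finrank k V = 2) (h2ne : (2 : k) ≠ 0) :
    finrank k (LinearMap.ker (LinearMap.trace k V)) = 3 := by
  have h4 : finrank k (Module.End k V) = 4 := by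
    rw [finrank_linearMap, h2]
  have hsurj : LinearMap.range (LinearMap.trace k V) = ⊤ := by
    rw [LinearMap.range_eq_top]
    intro c
    refine ⟨(c / 2) • (1 : Module.End k V), ?_⟩
    rw [map_smul, LinearMap.trace_one, h2, smul_eq_mul]
    push_cast
    field_simp
  have := LinearMap.finrank_range_add_finrank_ker (LinearMap.trace k V)
  rw [hsurj, finrank_top, Module.finrank_self, h4] at this
  omega

/-- **(G3)** irreducibility of `ad⁰`: a subspace of the trace-zero endomorphisms that is stable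
under conjugation by `Γ` is zero or everything. -/
theorem s56g_ad_irr [FiniteDimensional k V] (h2 : finrank k V = 2) (h2ne : (2 : k) ≠ 0)
    (hL : s56g_NoSemi ρ) (W : Submodule k (Module.End k V))
    (hW0 : ∀ A ∈ W, LinearMap.trace k V A = 0)
    (hst : ∀ g : Γ, ∀ A ∈ W, ρ g * A * ρ g⁻¹ ∈ W) :
    W = ⊥ ∨ W = LinearMap.ker (LinearMap.trace k V) := by
  by_contra hne
  push Not at hne
  obtain ⟨hbot, htop⟩ := hne
  have hinv : ∀ g : Γ, ρ g * ρ g⁻¹ = 1 := fun g => by rw [← map_mul, mul_inv_cancel, map_one]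
  have hinv' : ∀ g : Γ, ρ g⁻¹ * ρ g = 1 := fun g => by rw [← map_mul, inv_mul_cancel, map_one]
  have hst' : ∀ g : Γ, ∀ A ∈ W, ρ g⁻¹ * A * ρ g ∈ W := by
    intro g A hA
    have := hst g⁻¹ A hA
    rwa [inv_inv] at this
  -- semi-invariance from a conjugation formula
  have hsemi_of : ∀ (C : Module.End k V) (g : Γ) (c : k), ρ g⁻¹ * C * ρ g = c • C →
      ∀ x, C (ρ g x) = c • ρ g (C x) := by
    intro C g c hc x
    have h1 := congrArg (fun f : Module.End k V => ρ g (f x)) hc
    simp only [Module.End.mul_apply, LinearMap.smul_apply, map_smul] at h1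
    rw [s56g_apply_inv] at h1
    exact h1
  obtain ⟨A, hAW, hA0⟩ := Submodule.exists_mem_ne_zero_of_ne_bot hbot
  have hAns := s56g_not_scalar_of_trace_zero h2 h2ne hA0 (hW0 A hAW)
  -- Step 2: `W` is not a line
  obtain ⟨B, hBW, hB⟩ : ∃ B ∈ W, ¬ ∃ c : k, B = c • A := by
    by_contra hline
    push Not at hline
    refine hL A hAns (fun g => ?_)
    obtain ⟨c, hc⟩ := hline _ (hst' g A hAW)
    exact ⟨c, hsemi_of A g c hc⟩
  -- Step 3: the bracket is nonzero
  set C : Module.End k V := A * B - B * A with hC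
  have hC0 : C ≠ 0 := by
    intro h
    obtain ⟨x, y, hxy⟩ := s56g_centralizer h2 hAns (sub_eq_zero.mp h)
    have htrB := hW0 B hBW
    rw [hxy, map_add, map_smul, map_smul, hW0 A hAW, smul_zero, add_zero, LinearMap.trace_one,
      h2, smul_eq_mul] at htrB
    have hx0 : x = 0 := by
      rcases mul_eq_zero.mp htrB with h | h
      · exact h
      · exact absurd (by exact_mod_cast h) h2ne
    apply hB
    exact ⟨y, by rw [hxy, hx0, zero_smul, zero_add]⟩
  have hCtr : LinearMap.trace k V C = 0 := by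
    rw [hC, map_sub, LinearMap.trace_mul_comm, sub_self]
  have hCns := s56g_not_scalar_of_trace_zero h2 h2ne hC0 hCtr
  -- Step 5: dimension count, `W = span {A, B}`
  have hle : W ≤ LinearMap.ker (LinearMap.trace k V) := fun D hD => LinearMap.mem_ker.mpr (hW0 D hD)
  have hlt : W < LinearMap.ker (LinearMap.trace k V) := lt_of_le_of_ne hle htop
  have hfW : finrank k W < 3 := by
    have := Submodule.finrank_lt_finrank_of_lt hlt
    rwa [s56g_finrank_ad h2 h2ne] at this
  have hli : LinearIndependent k ![A, B] :=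
    LinearIndependent.pair_iff.mpr (s56g_indep_of_not_smul hA0 hB)
  have hr : Set.range ![A, B] = {A, B} := by
    rw [Matrix.range_cons, Matrix.range_cons, Matrix.range_empty]
    ext x; simp [or_comm]
  have hspan2 : finrank k (Submodule.span k ({A, B} : Set (Module.End k V))) = 2 := by
    rw [← hr, finrank_span_eq_card hli]; simp
  have hsle : Submodule.span k ({A, B} : Set (Module.End k V)) ≤ W := by
    rw [Submodule.span_le]
    intro D hD
    rcases hD with rfl | rfl
    · exact hAW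
    · exact hBW
  have hWeq : Submodule.span k ({A, B} : Set (Module.End k V)) = W := by
    refine Submodule.eq_of_le_of_finrank_eq hsle ?_
    have := Submodule.finrank_mono hsle
    omega
  have hcomb : ∀ D ∈ W, ∃ a b : k, D = a • A + b • B := by
    intro D hD
    rw [← hWeq, Submodule.mem_span_pair] at hD
    obtain ⟨a, b, hab⟩ := hD
    exact ⟨a, b, hab.symm⟩
  -- the bracket is semi-invariant
  refine hL C hCns (fun g => ?_)
  obtain ⟨a₁, b₁, hA'⟩ := hcomb _ (hst' g A hAW)
  obtain ⟨a₂, b₂, hB'⟩ := hcomb _ (hst' g B hBW)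
  refine ⟨a₁ * b₂ - a₂ * b₁, hsemi_of C g _ ?_⟩
  have hconj : ρ g⁻¹ * C * ρ g
      = (ρ g⁻¹ * A * ρ g) * (ρ g⁻¹ * B * ρ g) - (ρ g⁻¹ * B * ρ g) * (ρ g⁻¹ * A * ρ g) := by
    have e1 : (ρ g⁻¹ * A * ρ g) * (ρ g⁻¹ * B * ρ g) = ρ g⁻¹ * (A * B) * ρ g := by
      calc (ρ g⁻¹ * A * ρ g) * (ρ g⁻¹ * B * ρ g)
          = ρ g⁻¹ * A * (ρ g * ρ g⁻¹) * B * ρ g := by simp only [mul_assoc]
        _ = ρ g⁻¹ * (A * B) * ρ g := by rw [hinv, mul_one]; simp only [mul_assoc]
    have e2 : (ρ g⁻¹ * B * ρ g) * (ρ g⁻¹ * A * ρ g) = ρ g⁻¹ * (B * A) * ρ g := by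
      calc (ρ g⁻¹ * B * ρ g) * (ρ g⁻¹ * A * ρ g)
          = ρ g⁻¹ * B * (ρ g * ρ g⁻¹) * A * ρ g := by simp only [mul_assoc]
        _ = ρ g⁻¹ * (B * A) * ρ g := by rw [hinv, mul_one]; simp only [mul_assoc]
    rw [e1, e2, hC, mul_sub, sub_mul]
  rw [hconj, hA', hB', hC]
  simp only [mul_add, add_mul, smul_mul_assoc, mul_smul_comm, smul_add, smul_smul, smul_sub,
    sub_smul]
  module

end ad

end Fermat.Agent.S56
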