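/-
S56 / [TW-GRP], Dickson-free half (helper24, prefix `s56g_`).  Mathlib only.

Descent from an algebraically closed extension `K / k`: the representation `ρ` is defined over `k`,
the standing hypotheses hold for its base change `ρK` to `K` (this is the shape of the frozen
`habs`, `hTW`).  Conclusions over `k`: `s56g_NoSemi ρ`, hence `ad⁰` irreducible over `k`; and a
regular element (distinct eigenvalues) in every subgroup containing the commutators.
-/
import Fermat.Agent.S56.Grp.Ad

set_option autoImplicit false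

namespace Fermat.Agent.S56

open Polynomial Module TensorProduct

section descent

variable {Γ : Type*} [Group Γ] {k : Type*} [Field k] {V : Type*} [AddCommGroup V] [Module k V]
variable (K : Type*) [Field K] [Algebra k K]
variable (ρ : Γ →* Module.End k V) (ρK : Γ →* Module.End K (K ⊗[k] V))

/-- base change of a non-scalar endomorphism is non-scalar. -/
theorem s56g_baseChange_not_scalar (h2 : finrank k V = 2) (A : Module.End k V)
    (hA : ¬ ∃ c : k, ∀ x, A x = c • x) :
    ¬ ∃ γ : K, ∀ y, A.baseChange K y = γ • y := by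
  rintro ⟨γ, hγ⟩
  have hfd : FiniteDimensional k V := FiniteDimensional.of_finrank_pos (by omega)
  obtain ⟨v, hli⟩ := s56g_exists_cyclic h2 A hA
  let b : Basis (Fin 2) k V :=
    basisOfLinearIndependentOfCardEqFinrank (LinearIndependent.pair_iff.mpr hli) (by simp [h2])
  have hb : ⇑b = ![v, A v] := coe_basisOfLinearIndependentOfCardEqFinrank _ _
  have hb0 : b 0 = v := by rw [hb]; rfl
  have hb1 : b 1 = A v := by rw [hb]; rfl
  have h1 : LinearMap.toMatrix b b A 1 0 = 1 := by
    rw [LinearMap.toMatrix_apply, hb0, ← hb1]; simp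
  have h2' := congrFun (congrFun (LinearMap.toMatrix_baseChange K A b b) 1) 0
  rw [Matrix.map_apply, h1, map_one, LinearMap.toMatrix_apply, hγ, map_smul] at h2'
  simp at h2'

/-- **descent of (L)**. -/
theorem s56g_noSemi_descent [IsAlgClosed K] (h2 : finrank k V = 2)
    (hρK : ∀ g, ρK g = (ρ g).baseChange K) (hΓ : s56g_Irr ρK ⊤)
    (hidx : ∀ H : Subgroup Γ, H.index = 2 → s56g_Irr ρK H) : s56g_NoSemi ρ := by
  intro A hA hsemi
  have hfd : FiniteDimensional k V := FiniteDimensional.of_finrank_pos (by omega)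
  have h2K : finrank K (K ⊗[k] V) = 2 := by rw [finrank_baseChange, h2]
  refine s56g_no_semiinvariant ρK h2K hΓ hidx (A.baseChange K)
    (s56g_baseChange_not_scalar K h2 A hA) (fun g => ?_)
  obtain ⟨c, hc⟩ := hsemi g
  refine ⟨algebraMap k K c, fun y => ?_⟩
  have h : A ∘ₗ ρ g = c • (ρ g ∘ₗ A) := LinearMap.ext (fun x => by
    simp only [LinearMap.comp_apply, LinearMap.smul_apply]; exact hc x)
  have h' := congrArg (fun f => LinearMap.baseChange K f y) h
  simp only [LinearMap.baseChange_comp, LinearMap.baseChange_smul, LinearMap.comp_apply,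
    LinearMap.smul_apply] at h'
  rw [hρK, h', algebraMap_smul]

/-- **(G3) over `k`**: `ad⁰` is irreducible over the field of definition. -/
theorem s56g_ad_irr_descent [IsAlgClosed K] [FiniteDimensional k V] (h2 : finrank k V = 2)
    (h2ne : (2 : k) ≠ 0) (hρK : ∀ g, ρK g = (ρ g).baseChange K) (hΓ : s56g_Irr ρK ⊤)
    (hidx : ∀ H : Subgroup Γ, H.index = 2 → s56g_Irr ρK H)
    (W : Submodule k (Module.End k V)) (hW0 : ∀ A ∈ W, LinearMap.trace k V A = 0)
    (hst : ∀ g : Γ, ∀ A ∈ W, ρ g * A * ρ g⁻¹ ∈ W) :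
    W = ⊥ ∨ W = LinearMap.ker (LinearMap.trace k V) :=
  s56g_ad_irr ρ h2 h2ne (s56g_noSemi_descent K ρ ρK h2 hρK hΓ hidx) W hW0 hst

/-- **(G2) over `k`**: a subgroup containing all commutators contains an element whose two
eigenvalues (whenever they lie in `k`) are distinct. -/
theorem s56g_regular_descent [IsAlgClosed K] [FiniteDimensional k V] (h2 : finrank k V = 2)
    (h2ne : (2 : k) ≠ 0) (hρK : ∀ g, ρK g = (ρ g).baseChange K) (hΓ : s56g_Irr ρK ⊤)
    (hidx : ∀ H : Subgroup Γ, H.index = 2 → s56g_Irr ρK H) (N : Subgroup Γ)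
    (hN : ∀ g h : Γ, g * h * g⁻¹ * h⁻¹ ∈ N) :
    ∃ σ ∈ N, ∀ α β : k, LinearMap.charpoly (ρ σ) = (X - C α) * (X - C β) → α ≠ β := by
  have h2K : finrank K (K ⊗[k] V) = 2 := by rw [finrank_baseChange, h2]
  have h2neK : (2 : K) ≠ 0 := by
    intro h
    apply h2ne
    apply (algebraMap k K).injective
    rw [map_ofNat, map_zero]; exact h
  obtain ⟨σ, hσN, hσ⟩ := s56g_exists_regular ρK h2K h2neK hΓ hidx N hN
  refine ⟨σ, hσN, fun α β hαβ heq => hσ ⟨algebraMap k K α, ?_⟩⟩
  rw [hρK, LinearMap.charpoly_baseChange, hαβ, heq, Polynomial.map_mul, Polynomial.map_sub,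
    Polynomial.map_X, Polynomial.map_C, pow_two]

end descent

end Fermat.Agent.S56
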