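/-
S56 / [TW-GRP], Dickson-free half (helper24, prefix `s56g_`).

The group theory of `Basic … Descent` specialised to a `ResidualGaloisRep k`, with the hypotheses in
the exact shape of the frozen S56 (`habs`, `hTW`, `hsplit`):
* `s56g_res_regular` : every subgroup `N` of `G_ℚ` containing the commutators contains `σ` with
  `charpoly (ρbar.ρ σ) = (X - C α) * (X - C β)`, `α ≠ β` in `k`;
* `s56g_res_ad_irr` : `ad⁰ ρbar` is irreducible over `k`;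
* `s56g_cyc M` : the subgroup fixing the `M`-th roots of unity; it contains all commutators.
-/
import Fermat.Prelude.Def_GaloisRep_Residual
import Fermat.Agent.S56.Grp.Descent

set_option autoImplicit false

namespace Fermat.Agent.S56

open Polynomial Module TensorProduct

section residual

variable {k : Type} [Field k] (ρbar : ResidualGaloisRep k)

/-- the frozen shape of the Taylor–Wiles hypothesis `hTW` of S56. -/
def s56g_TWHyp : Prop :=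
  ∀ (K : Type) [Field K] [Algebra k K]
    (G : Subgroup (AlgebraicClosure ℚ ≃ₐ[ℚ] AlgebraicClosure ℚ)), G.index = 2 →
    ∀ V : Submodule K (ρbar.baseChange K).V,
      (∀ σ ∈ G, ∀ x ∈ V, (ρbar.baseChange K).ρ σ x ∈ V) → V = ⊥ ∨ V = ⊤

theorem s56g_res_irr_top (habs : ρbar.IsAbsolutelyIrreducible) :
    s56g_Irr (ρbar.baseChange (AlgebraicClosure k)).ρ ⊤ :=
  fun W hW => habs W (fun σ x hx => hW σ (Subgroup.mem_top σ) x hx)

theorem s56g_res_irr_idx (hTW : s56g_TWHyp ρbar) :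
    ∀ H : Subgroup (AlgebraicClosure ℚ ≃ₐ[ℚ] AlgebraicClosure ℚ), H.index = 2 →
      s56g_Irr (ρbar.baseChange (AlgebraicClosure k)).ρ H :=
  fun H hH W hW => hTW (AlgebraicClosure k) H hH W hW

/-- **regular elements**: every subgroup containing the commutators of `G_ℚ` (e.g. the absolute
Galois group of a cyclotomic field) contains an element with two distinct eigenvalues in `k`. -/
theorem s56g_res_regular (h2ne : (2 : k) ≠ 0) (habs : ρbar.IsAbsolutelyIrreducible)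
    (hTW : s56g_TWHyp ρbar)
    (hsplit : ∀ σ : AlgebraicClosure ℚ ≃ₐ[ℚ] AlgebraicClosure ℚ,
      ∃ α β : k, LinearMap.charpoly (ρbar.ρ σ) = (X - C α) * (X - C β))
    (N : Subgroup (AlgebraicClosure ℚ ≃ₐ[ℚ] AlgebraicClosure ℚ))
    (hN : ∀ g h : AlgebraicClosure ℚ ≃ₐ[ℚ] AlgebraicClosure ℚ, g * h * g⁻¹ * h⁻¹ ∈ N) :
    ∃ σ ∈ N, ∃ α β : k, α ≠ β ∧ LinearMap.charpoly (ρbar.ρ σ) = (X - C α) * (X - C β) := by
  obtain ⟨σ, hσN, hσ⟩ := s56g_regular_descent (AlgebraicClosure k) ρbar.ρ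
    (ρbar.baseChange (AlgebraicClosure k)).ρ ρbar.finrank_eq h2ne (fun _ => rfl)
    (s56g_res_irr_top ρbar habs) (s56g_res_irr_idx ρbar hTW) N hN
  obtain ⟨α, β, hαβ⟩ := hsplit σ
  exact ⟨σ, hσN, α, β, hσ α β hαβ, hαβ⟩

/-- **`ad⁰ ρbar` is irreducible over `k`**: a `k`-subspace of the trace-zero endomorphisms stable
under conjugation by `G_ℚ` is zero or everything. -/
theorem s56g_res_ad_irr (h2ne : (2 : k) ≠ 0) (habs : ρbar.IsAbsolutelyIrreducible)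
    (hTW : s56g_TWHyp ρbar) (W : Submodule k (Module.End k ρbar.V))
    (hW0 : ∀ A ∈ W, LinearMap.trace k ρbar.V A = 0)
    (hst : ∀ g : AlgebraicClosure ℚ ≃ₐ[ℚ] AlgebraicClosure ℚ, ∀ A ∈ W,
      ρbar.ρ g * A * ρbar.ρ g⁻¹ ∈ W) :
    W = ⊥ ∨ W = LinearMap.ker (LinearMap.trace k ρbar.V) :=
  s56g_ad_irr_descent (AlgebraicClosure k) ρbar.ρ (ρbar.baseChange (AlgebraicClosure k)).ρ
    ρbar.finrank_eq h2ne (fun _ => rfl) (s56g_res_irr_top ρbar habs) (s56g_res_irr_idx ρbar hTW)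
    W hW0 hst

end residual

section two

open IsLocalRing

/-- `2 ≠ 0` in the residue field of a local ring of odd residue characteristic. -/
theorem s56g_two_ne_zero {𝒪 : Type*} [CommRing 𝒪] [IsLocalRing 𝒪] (p : ℕ) [hp : Fact p.Prime]
    (hp2 : p ≠ 2) (hp𝒪 : (p : 𝒪) ∈ maximalIdeal 𝒪) : (2 : ResidueField 𝒪) ≠ 0 := by
  intro h
  have h2 : (2 : 𝒪) ∈ maximalIdeal 𝒪 := by
    rw [← Ideal.Quotient.eq_zero_iff_mem]
    have : (Ideal.Quotient.mk (maximalIdeal 𝒪)) (2 : 𝒪) = (2 : ResidueField 𝒪) := map_ofNat _ 2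
    rw [this]; exact h
  have hcop : Nat.Coprime p 2 := (Nat.coprime_primes hp.out Nat.prime_two).mpr hp2
  have hgcd := Nat.Coprime.isCoprime hcop
  obtain ⟨a, b, hab⟩ := hgcd
  have h1 : (1 : 𝒪) ∈ maximalIdeal 𝒪 := by
    have h1' : ((a * (p : ℤ) + b * (2 : ℕ) : ℤ) : 𝒪) = 1 := by rw [hab]; simp
    rw [← h1']
    push_cast
    exact Ideal.add_mem _ (Ideal.mul_mem_left _ _ hp𝒪) (Ideal.mul_mem_left _ _ h2)
  exact (Ideal.ne_top_iff_one _).mp (maximalIdeal.isMaximal 𝒪).ne_top h1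

end two

section cyclotomic

/-- the subgroup of `G_ℚ` fixing all `M`-th roots of unity (`= G_{ℚ(ζ_M)}`). -/
def s56g_cyc (M : ℕ) : Subgroup (AlgebraicClosure ℚ ≃ₐ[ℚ] AlgebraicClosure ℚ) where
  carrier := {σ | ∀ ζ : AlgebraicClosure ℚ, ζ ^ M = 1 → σ ζ = ζ}
  one_mem' := fun _ _ => rfl
  mul_mem' := by
    intro σ τ hσ hτ ζ hζ
    show σ (τ ζ) = ζ
    rw [hτ ζ hζ, hσ ζ hζ]
  inv_mem' := by
    intro σ hσ ζ hζ
    have := hσ ζ hζ
    calc σ⁻¹ ζ = σ⁻¹ (σ ζ) := by rw [this]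
      _ = ζ := σ.symm_apply_apply ζ

lemma s56g_mem_cyc {M : ℕ} {σ : AlgebraicClosure ℚ ≃ₐ[ℚ] AlgebraicClosure ℚ} :
    σ ∈ s56g_cyc M ↔ ∀ ζ : AlgebraicClosure ℚ, ζ ^ M = 1 → σ ζ = ζ := Iff.rfl

/-- every Galois automorphism acts on the `M`-th roots of unity as a power map. -/
lemma s56g_root_pow (M : ℕ) (hM : M ≠ 0) (σ : AlgebraicClosure ℚ ≃ₐ[ℚ] AlgebraicClosure ℚ) :
    ∃ m : ℤ, ∀ ζ : (AlgebraicClosure ℚ)ˣ, ζ ^ M = 1 →
      σ (ζ : AlgebraicClosure ℚ) = ((ζ ^ m : (AlgebraicClosure ℚ)ˣ) : AlgebraicClosure ℚ) := by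
  have : NeZero M := ⟨hM⟩
  obtain ⟨m, hm⟩ := MonoidHom.map_cyclic (restrictRootsOfUnity σ M)
  refine ⟨m, fun ζ hζ => ?_⟩
  have hmem : ζ ∈ rootsOfUnity M (AlgebraicClosure ℚ) := (mem_rootsOfUnity M ζ).mpr hζ
  have := hm ⟨ζ, hmem⟩
  have h2 := congrArg (fun x : rootsOfUnity M (AlgebraicClosure ℚ) =>
    ((x : (AlgebraicClosure ℚ)ˣ) : AlgebraicClosure ℚ)) this
  simp only [restrictRootsOfUnity_coe_apply] at h2
  rw [h2]
  simp

/-- two Galois automorphisms commute on the `M`-th roots of unity. -/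
lemma s56g_root_comm (M : ℕ) (hM : M ≠ 0) (σ τ : AlgebraicClosure ℚ ≃ₐ[ℚ] AlgebraicClosure ℚ)
    {ζ : AlgebraicClosure ℚ} (hζ : ζ ^ M = 1) : σ (τ ζ) = τ (σ ζ) := by
  obtain ⟨a, ha⟩ := s56g_root_pow M hM σ
  obtain ⟨b, hb⟩ := s56g_root_pow M hM τ
  obtain ⟨u, rfl⟩ := IsUnit.of_pow_eq_one hζ hM
  have hu : u ^ M = 1 := by
    apply Units.ext
    rw [Units.val_pow_eq_pow_val]; exact hζ
  have hua : (u ^ a) ^ M = 1 := by rw [← zpow_natCast, ← zpow_mul, mul_comm, zpow_mul, zpow_natCast, hu, one_zpow]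
  have hub : (u ^ b) ^ M = 1 := by rw [← zpow_natCast, ← zpow_mul, mul_comm, zpow_mul, zpow_natCast, hu, one_zpow]
  rw [hb u hu, ha u hu, ha _ hub, hb _ hua, ← zpow_mul, ← zpow_mul, mul_comm]

/-- `G_{ℚ(ζ_M)}` contains all the commutators of `G_ℚ`. -/
theorem s56g_cyc_comm (M : ℕ) (hM : M ≠ 0) (g h : AlgebraicClosure ℚ ≃ₐ[ℚ] AlgebraicClosure ℚ) :
    g * h * g⁻¹ * h⁻¹ ∈ s56g_cyc M := by
  intro ζ hζ
  have hpow : ∀ (σ : AlgebraicClosure ℚ ≃ₐ[ℚ] AlgebraicClosure ℚ) {z : AlgebraicClosure ℚ},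
      z ^ M = 1 → (σ z) ^ M = 1 := by
    intro σ z hz
    rw [← map_pow, hz, map_one]
  show g (h (g⁻¹ (h⁻¹ ζ))) = ζ
  have h1 : (h⁻¹ ζ) ^ M = 1 := hpow _ hζ
  have h2 : (g⁻¹ (h⁻¹ ζ)) ^ M = 1 := hpow _ h1
  rw [s56g_root_comm M hM g h h2]
  have e1 : g (g⁻¹ (h⁻¹ ζ)) = h⁻¹ ζ := g.apply_symm_apply _
  rw [e1]
  exact h.apply_symm_apply ζ

end cyclotomic

end Fermat.Agent.S56
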