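/-
S56 / [TW-GRP] (helper24, prefix `s56g_`): transport of the frozen hypotheses `habs`, `hTW`,
`hsplit` of S56 along an equivalence of residual representations (e.g. to a framed one,
`S53.exists_framedResidual`).
-/
import Fermat.Agent.S56.Grp.Residual
import Fermat.Prelude.Def_GaloisRep_ResidualEquiv

set_option autoImplicit false

namespace Fermat.Agent.S56

open Polynomial Module TensorProduct

local notation "GQ" => (AlgebraicClosure ℚ ≃ₐ[ℚ] AlgebraicClosure ℚ)

variable {k : Type} [Field k] {ρ₁ ρ₂ : ResidualGaloisRep k}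

/-- the base change of an equivalence intertwines the base-changed actions. -/
lemma s56g_tr_baseChange_apply (e : ResidualGaloisRep.Equiv ρ₁ ρ₂) (K : Type) [Field K]
    [Algebra k K] (σ : GQ) (x : K ⊗[k] ρ₁.V) :
    e.toLinearEquiv.baseChange k K ρ₁.V ρ₂.V ((ρ₁.ρ σ).baseChange K x) =
      (ρ₂.ρ σ).baseChange K (e.toLinearEquiv.baseChange k K ρ₁.V ρ₂.V x) := by
  induction x using TensorProduct.induction_on with
  | zero => simp only [map_zero]
  | tmul b v =>
    rw [LinearMap.baseChange_tmul, LinearEquiv.baseChange_tmul, LinearEquiv.baseChange_tmul,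
      LinearMap.baseChange_tmul, e.map_apply]
  | add x y hx hy => simp only [map_add, hx, hy]

/-- irreducibility of a subgroup after base change is invariant under equivalence. -/
theorem s56g_tr_irr (e : ResidualGaloisRep.Equiv ρ₁ ρ₂) (K : Type) [Field K] [Algebra k K]
    (G : Subgroup GQ)
    (h : ∀ V : Submodule K (ρ₁.baseChange K).V,
      (∀ σ ∈ G, ∀ x ∈ V, (ρ₁.baseChange K).ρ σ x ∈ V) → V = ⊥ ∨ V = ⊤) :
    ∀ V : Submodule K (ρ₂.baseChange K).V,
      (∀ σ ∈ G, ∀ x ∈ V, (ρ₂.baseChange K).ρ σ x ∈ V) → V = ⊥ ∨ V = ⊤ := by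
  intro V hV
  set eK : (K ⊗[k] ρ₁.V) ≃ₗ[K] (K ⊗[k] ρ₂.V) := e.toLinearEquiv.baseChange k K ρ₁.V ρ₂.V with heK
  have hst : ∀ σ ∈ G, ∀ x ∈ (V.comap eK.toLinearMap : Submodule K (K ⊗[k] ρ₁.V)),
      (ρ₁.baseChange K).ρ σ x ∈ (V.comap eK.toLinearMap : Submodule K (K ⊗[k] ρ₁.V)) := by
    intro σ hσ x hx
    show eK ((ρ₁.ρ σ).baseChange K x) ∈ V
    rw [heK, s56g_tr_baseChange_apply e K σ x]
    exact hV σ hσ _ hx
  rcases h _ hst with h1 | h1
  · left
    rw [Submodule.eq_bot_iff]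
    intro y hy
    have : eK.symm y ∈ (V.comap eK.toLinearMap : Submodule K (K ⊗[k] ρ₁.V)) := by
      show eK (eK.symm y) ∈ V
      rw [LinearEquiv.apply_symm_apply]; exact hy
    rw [h1, Submodule.mem_bot] at this
    have h2 := congrArg eK this
    rwa [LinearEquiv.apply_symm_apply, map_zero] at h2
  · right
    rw [Submodule.eq_top_iff']
    intro y
    have : eK.symm y ∈ (V.comap eK.toLinearMap : Submodule K (K ⊗[k] ρ₁.V)) := by
      rw [h1]; trivial
    have h2 : eK (eK.symm y) ∈ V := this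
    rwa [LinearEquiv.apply_symm_apply] at h2

theorem s56g_tr_TW (e : ResidualGaloisRep.Equiv ρ₁ ρ₂) (h : s56g_TWHyp ρ₁) : s56g_TWHyp ρ₂ :=
  fun K _ _ G hG => s56g_tr_irr e K G (h K G hG)

theorem s56g_tr_abs (e : ResidualGaloisRep.Equiv ρ₁ ρ₂) (h : ρ₁.IsAbsolutelyIrreducible) :
    ρ₂.IsAbsolutelyIrreducible := by
  intro W hW
  refine s56g_tr_irr e (AlgebraicClosure k) ⊤ (fun V hV => h V (fun σ x hx => hV σ trivial x hx)) W
    (fun σ _ x hx => hW σ x hx)

theorem s56g_tr_charpoly (e : ResidualGaloisRep.Equiv ρ₁ ρ₂) (σ : GQ) :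
    LinearMap.charpoly (ρ₂.ρ σ) = LinearMap.charpoly (ρ₁.ρ σ) := by
  have h : ρ₂.ρ σ = e.toLinearEquiv.conj (ρ₁.ρ σ) := by
    apply LinearMap.ext
    intro y
    rw [LinearEquiv.conj_apply_apply, e.map_apply, LinearEquiv.apply_symm_apply]
  rw [h, LinearEquiv.charpoly_conj]

theorem s56g_tr_unram (e : ResidualGaloisRep.Equiv ρ₁ ρ₂) {q : ℕ} (h : ρ₁.IsUnramifiedAt q) :
    ρ₂.IsUnramifiedAt q := by
  intro A hA σ hσ
  have h1 := h A hA σ hσ
  apply LinearMap.ext
  intro y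
  have := e.map_apply σ (e.toLinearEquiv.symm y)
  rw [LinearEquiv.apply_symm_apply, h1] at this
  rw [← this]
  simp

end Fermat.Agent.S56
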