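/-
S56 / [TW-GRP] (helper24, prefix `s56g_`): the group theory of `Grp/Residual.lean` at MATRIX level,
for a framed residual representation `rb : S53.FramedResidual k` (the vocabulary of [TAN]/[ASM]).

Hypotheses: `habs`, `hTW` for `rb.toResidualGaloisRep` (transport along `IsEquiv`: `Grp/Transport`).
* `s56g_fr_noSemi`  : no non-scalar matrix `A` with `A * rb g = c_g • (rb g * A)` for all `g`;
* `s56g_fr_ad_irr`  : a `k`-subspace of trace-zero matrices stable under `A ↦ rb g * A * rb g⁻¹` is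
                      `⊥` or contains all trace-zero matrices;
* `s56g_fr_regular` : every subgroup containing the commutators contains a regular element.
-/
import Fermat.Agent.S53.FramedResidual
import Fermat.Agent.S56.Grp.Residual

set_option autoImplicit false

namespace Fermat.Agent.S56

open Matrix Polynomial Module

local notation "GQ" => (AlgebraicClosure ℚ ≃ₐ[ℚ] AlgebraicClosure ℚ)

variable {k : Type} [Field k] (rb : Fermat.Agent.S53.FramedResidual k)

lemma s56g_fr_inv_mul (g : GQ) : rb g⁻¹ * rb g = 1 := by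
  rw [← rb.map_mul, inv_mul_cancel, rb.map_one]

lemma s56g_fr_mul_inv (g : GQ) : rb g * rb g⁻¹ = 1 := by
  rw [← rb.map_mul, mul_inv_cancel, rb.map_one]

/-- the representation `σ ↦ toLin' (rb σ)` on `Fin 2 → k` (cleanly typed). -/
noncomputable def s56g_frRep : GQ →* Module.End k (Fin 2 → k) where
  toFun σ := Matrix.toLin' (rb σ)
  map_one' := by rw [rb.map_one, Matrix.toLin'_one]; rfl
  map_mul' σ τ := by rw [rb.map_mul, Matrix.toLin'_mul]; rfl

lemma s56g_frRep_apply (g : GQ) : s56g_frRep rb g = Matrix.toLin' (rb g) := rfl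

/-- `(L)` over the field of definition for `s56g_frRep`. -/
theorem s56g_fr_noSemi' (habs : rb.toResidualGaloisRep.IsAbsolutelyIrreducible)
    (hTW : s56g_TWHyp rb.toResidualGaloisRep) : s56g_NoSemi (s56g_frRep rb) :=
  s56g_noSemi_descent (AlgebraicClosure k) rb.toResidualGaloisRep.ρ
    (rb.toResidualGaloisRep.baseChange (AlgebraicClosure k)).ρ rb.toResidualGaloisRep.finrank_eq
    (fun _ => rfl) (s56g_res_irr_top _ habs) (s56g_res_irr_idx _ hTW)

/-- `(L)` at matrix level over the field of definition. -/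
theorem s56g_fr_noSemi (habs : rb.toResidualGaloisRep.IsAbsolutelyIrreducible)
    (hTW : s56g_TWHyp rb.toResidualGaloisRep) (A : Matrix (Fin 2) (Fin 2) k)
    (hA : ¬ ∃ c : k, A = c • (1 : Matrix (Fin 2) (Fin 2) k))
    (hsemi : ∀ g : GQ, ∃ c : k, A * rb g = c • (rb g * A)) : False := by
  refine s56g_fr_noSemi' rb habs hTW (Matrix.toLin' A) ?_ ?_
  · rintro ⟨c, hc⟩
    apply hA
    refine ⟨c, ?_⟩
    apply Matrix.toLin'.injective
    apply LinearMap.ext
    intro x
    rw [hc x, map_smul, Matrix.toLin'_one]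
    rfl
  · intro g
    obtain ⟨c, hc⟩ := hsemi g
    refine ⟨c, fun x => ?_⟩
    rw [s56g_frRep_apply, ← Matrix.toLin'_mul_apply, hc, map_smul, LinearMap.smul_apply,
      Matrix.toLin'_mul_apply]

/-- **`ad⁰` is irreducible**, matrix level. -/
theorem s56g_fr_ad_irr (h2ne : (2 : k) ≠ 0)
    (habs : rb.toResidualGaloisRep.IsAbsolutelyIrreducible)
    (hTW : s56g_TWHyp rb.toResidualGaloisRep) (W : Submodule k (Matrix (Fin 2) (Fin 2) k))
    (hW0 : ∀ A ∈ W, A.trace = 0) (hst : ∀ g : GQ, ∀ A ∈ W, rb g * A * rb g⁻¹ ∈ W) :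
    W = ⊥ ∨ ∀ A : Matrix (Fin 2) (Fin 2) k, A.trace = 0 → A ∈ W := by
  set e : Matrix (Fin 2) (Fin 2) k ≃ₐ[k] Module.End k (Fin 2 → k) := Matrix.toLinAlgEquiv' with he
  have hee : ∀ A, e A = Matrix.toLin' A := fun _ => rfl
  set W' : Submodule k (Module.End k (Fin 2 → k)) := W.map e.toLinearMap with hW'
  have hW0' : ∀ B ∈ W', LinearMap.trace k (Fin 2 → k) B = 0 := by
    rintro _ ⟨A, hA, rfl⟩
    exact (Matrix.trace_toLin'_eq A).trans (hW0 A hA)
  have hst' : ∀ g : GQ, ∀ B ∈ W', s56g_frRep rb g * B * s56g_frRep rb g⁻¹ ∈ W' := by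
    rintro g _ ⟨A, hA, rfl⟩
    refine ⟨rb g * A * rb g⁻¹, hst g A hA, ?_⟩
    show e (rb g * A * rb g⁻¹) = _
    rw [map_mul, map_mul]
    rfl
  have h : W' = ⊥ ∨ W' = LinearMap.ker (LinearMap.trace k (Fin 2 → k)) :=
    s56g_ad_irr (s56g_frRep rb) (Module.finrank_fin_fun k) h2ne (s56g_fr_noSemi' rb habs hTW) W'
      hW0' hst'
  rcases h with h | h
  · left
    rw [Submodule.eq_bot_iff]
    intro A hA
    have h1 : e A ∈ W' := ⟨A, hA, rfl⟩
    rw [h, Submodule.mem_bot] at h1
    exact e.injective (h1.trans (map_zero e).symm)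
  · right
    intro A hA
    have hmem : e A ∈ W' := by
      rw [h, LinearMap.mem_ker, hee]
      exact (Matrix.trace_toLin'_eq A).trans hA
    obtain ⟨B, hB, hBA⟩ := hmem
    have : B = A := e.injective hBA
    rwa [this] at hB

/-- **regular elements**, for a framed residual representation (matrix charpoly). -/
theorem s56g_fr_regular (h2ne : (2 : k) ≠ 0)
    (habs : rb.toResidualGaloisRep.IsAbsolutelyIrreducible)
    (hTW : s56g_TWHyp rb.toResidualGaloisRep)
    (hsplit : ∀ σ : GQ, ∃ α β : k, (rb σ).charpoly = (X - C α) * (X - C β))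
    (N : Subgroup GQ) (hN : ∀ g h : GQ, g * h * g⁻¹ * h⁻¹ ∈ N) :
    ∃ σ ∈ N, ∃ α β : k, α ≠ β ∧ (rb σ).charpoly = (X - C α) * (X - C β) := by
  have hch : ∀ σ : GQ, LinearMap.charpoly (rb.toResidualGaloisRep.ρ σ) = (rb σ).charpoly :=
    fun σ => Matrix.charpoly_toLin' (rb σ)
  obtain ⟨σ, hσ, α, β, hαβ, h⟩ := s56g_res_regular rb.toResidualGaloisRep h2ne habs hTW
    (fun σ => by
      obtain ⟨α, β, h⟩ := hsplit σ
      exact ⟨α, β, (hch σ).trans h⟩) N hN
  exact ⟨σ, hσ, α, β, hαβ, (hch σ).symm.trans h⟩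

/-- the frozen charpoly clause in matrix form. -/
theorem s56g_fr_charpoly (σ : GQ) :
    LinearMap.charpoly (rb.toResidualGaloisRep.ρ σ) = (rb σ).charpoly :=
  Matrix.charpoly_toLin' (rb σ)

/-- a regular element is not scalar. -/
theorem s56g_fr_not_scalar_of_regular {σ : GQ} {α β : k} (hαβ : α ≠ β)
    (h : (rb σ).charpoly = (X - C α) * (X - C β)) :
    ¬ ∃ c : k, rb σ = c • (1 : Matrix (Fin 2) (Fin 2) k) := by
  rintro ⟨c, hc⟩
  rw [hc] at h
  have h1 : (c • (1 : Matrix (Fin 2) (Fin 2) k)).charpoly = (X - C c) ^ 2 := by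
    rw [Matrix.charpoly_fin_two]
    simp only [Matrix.trace_smul, Matrix.trace_one, Fintype.card_fin, Matrix.det_smul,
      Matrix.det_one, smul_eq_mul, mul_one]
    rw [C_mul, C_pow]
    simp only [Nat.cast_ofNat, map_ofNat]
    ring
  rw [h1] at h
  have hα : (X - C c : k[X]) ^ 2 |>.IsRoot α := by rw [h]; simp
  have hβ : (X - C c : k[X]) ^ 2 |>.IsRoot β := by rw [h]; simp
  simp only [IsRoot.def, eval_pow, eval_sub, eval_X, eval_C] at hα hβ
  have h1 : α = c := sub_eq_zero.1 ((pow_eq_zero_iff (two_ne_zero)).1 hα)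
  have h2 : β = c := sub_eq_zero.1 ((pow_eq_zero_iff (two_ne_zero)).1 hβ)
  exact hαβ (h1.trans h2.symm)

end Fermat.Agent.S56
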