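/-
S56 / [TW-GRP] + [CHEB] (helper24, prefix `s56g_`): the SELECTION STEP of the Taylor–Wiles argument,
matrix level, `rb : S53.FramedResidual k`.

`M := ad⁰(rb)(1)` is modelled by the `k`-linear representation `s56g_twRep rb` of `G_ℚ` on all
`2 × 2` matrices, `g • A = det (rb g) • (rb g * A * rb g⁻¹)` (trace-zero matrices = the
subrepresentation `ad⁰ ⊗ det`).  A cocycle is a plain function `ψ : G_ℚ → Mat` with
`ψ (g * h) = ψ g + g • ψ h` (`s56g_IsCoc`).

* `s56g_coc_vanish` : inflation–restriction in cocycle form (abstract);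
* `s56g_H1Van rb`   : the input [H1-VAN] (helper10) as a Prop;
* `s56g_select`     : a trace-zero cocycle that is NOT a coboundary is detected by a regular element
  `σ₀ ∈ G_{ℚ(ζ_{p^(n+1)})}` : `∀ m, ψ σ₀ ≠ σ₀ • m - m`.
-/
import Fermat.Agent.S56.Grp.MatAd

set_option autoImplicit false

namespace Fermat.Agent.S56

open Matrix Polynomial Module

local notation "GQ" => (AlgebraicClosure ℚ ≃ₐ[ℚ] AlgebraicClosure ℚ)

section abstract

variable {Γ : Type*} [Group Γ] {R : Type*} [CommRing R] {M : Type*} [AddCommGroup M] [Module R M]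
  (ρM : Representation R Γ M) (ψ : Γ → M)

/-- `ψ` is a `1`-cocycle for the representation `ρM`. -/
def s56g_IsCoc : Prop := ∀ g h : Γ, ψ (g * h) = ψ g + ρM g (ψ h)

variable {ρM ψ}

lemma s56g_coc_one (hψ : s56g_IsCoc ρM ψ) : ψ 1 = 0 := by
  have h := hψ 1 1
  rw [mul_one, map_one, Module.End.one_apply] at h
  exact left_eq_add.mp h

lemma s56g_coc_mul_of_zero (hψ : s56g_IsCoc ρM ψ) {h : Γ} (hh : ψ h = 0) (g : Γ) :
    ψ (g * h) = ψ g := by
  rw [hψ, hh, map_zero, add_zero]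

/-- on elements acting trivially a cocycle is equivariant for conjugation. -/
lemma s56g_coc_conj (hψ : s56g_IsCoc ρM ψ) {x : Γ} (hx : ρM x = 1) (g : Γ) :
    ψ (g * x * g⁻¹) = ρM g (ψ x) := by
  have h1 : ψ (g * g⁻¹) = ψ g + ρM g (ψ g⁻¹) := hψ g g⁻¹
  rw [mul_inv_cancel, s56g_coc_one hψ] at h1
  rw [hψ (g * x) g⁻¹, hψ g x, map_mul, hx, mul_one]
  rw [add_assoc, add_comm (ρM g (ψ x)), ← add_assoc, ← h1, zero_add]

/-- **inflation–restriction, cocycle form**: `N₀` acts trivially, `H ≤ N₀` with `[Γ, N₀] ⊆ H`, no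
invariants (among the values of `ψ`); then a cocycle vanishing on `H` vanishes on `N₀`. -/
theorem s56g_coc_vanish (hψ : s56g_IsCoc ρM ψ) (N₀ H : Subgroup Γ) (hN₀ : ∀ x ∈ N₀, ρM x = 1)
    (hH : ∀ h ∈ H, ψ h = 0) (hcomm : ∀ g : Γ, ∀ x ∈ N₀, x⁻¹ * (g * x * g⁻¹) ∈ H)
    (P : M → Prop) (hP : ∀ g, P (ψ g)) (hinv : ∀ m, P m → (∀ g, ρM g m = m) → m = 0) :
    ∀ x ∈ N₀, ψ x = 0 := by
  intro x hx
  refine hinv _ (hP x) (fun g => ?_)
  rw [← s56g_coc_conj hψ (hN₀ x hx) g]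
  have h1 : g * x * g⁻¹ = x * (x⁻¹ * (g * x * g⁻¹)) := by group
  rw [h1]
  exact s56g_coc_mul_of_zero hψ (hH _ (hcomm g x hx)) x

end abstract

section twisted

variable {k : Type} [Field k] (rb : Fermat.Agent.S53.FramedResidual k)

/-- the representation `ad(rb) ⊗ det` of `G_ℚ` on `2 × 2` matrices. -/
noncomputable def s56g_twRep : Representation k GQ (Matrix (Fin 2) (Fin 2) k) where
  toFun g :=
    { toFun := fun A => (rb g).det • (rb g * A * rb g⁻¹)
      map_add' := fun A B => by rw [mul_add, add_mul, smul_add]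
      map_smul' := fun c A => by
        rw [RingHom.id_apply, Matrix.mul_smul, Matrix.smul_mul, smul_comm] }
  map_one' := by
    apply LinearMap.ext
    intro A
    show (rb 1).det • (rb 1 * A * rb 1⁻¹) = A
    rw [inv_one, rb.map_one, Matrix.det_one, one_smul, one_mul, mul_one]
  map_mul' g h := by
    apply LinearMap.ext
    intro A
    show (rb (g * h)).det • (rb (g * h) * A * rb (g * h)⁻¹) =
      (rb g).det • (rb g * ((rb h).det • (rb h * A * rb h⁻¹)) * rb g⁻¹)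
    rw [_root_.mul_inv_rev, rb.map_mul, rb.map_mul, Matrix.det_mul, Matrix.mul_smul, Matrix.smul_mul,
      smul_smul]
    simp only [mul_assoc]

lemma s56g_twRep_apply (g : GQ) (A : Matrix (Fin 2) (Fin 2) k) :
    s56g_twRep rb g A = (rb g).det • (rb g * A * rb g⁻¹) := rfl

lemma s56g_twRep_of_eq_one {x : GQ} (hx : rb x = 1) : s56g_twRep rb x = 1 := by
  have hx' : rb x⁻¹ = 1 := by
    have := s56g_fr_inv_mul rb x
    rwa [hx, mul_one] at this
  apply LinearMap.ext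
  intro A
  rw [s56g_twRep_apply, hx, hx', Matrix.det_one, one_smul, one_mul, mul_one]
  rfl

lemma s56g_twRep_trace (g : GQ) (A : Matrix (Fin 2) (Fin 2) k) :
    (s56g_twRep rb g A).trace = (rb g).det * A.trace := by
  rw [s56g_twRep_apply, Matrix.trace_smul, smul_eq_mul, Matrix.trace_mul_comm, ← mul_assoc,
    s56g_fr_inv_mul, one_mul]

lemma s56g_det_ne_zero (g : GQ) : (rb g).det ≠ 0 := by
  intro h
  have := congrArg Matrix.det (s56g_fr_mul_inv rb g)
  rw [Matrix.det_mul, h, zero_mul, Matrix.det_one] at this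
  exact zero_ne_one this

/-- the input **[H1-VAN]**: a trace-zero cocycle for `ad⁰(rb) ⊗ det` that vanishes on `ker rb` (i.e.
comes from the finite group `rb(G_ℚ) ⊆ GL₂(k)`) is a coboundary. -/
def s56g_H1Van : Prop :=
  ∀ ψ : GQ → Matrix (Fin 2) (Fin 2) k, (∀ g, (ψ g).trace = 0) → s56g_IsCoc (s56g_twRep rb) ψ →
    (∀ g, rb g = 1 → ψ g = 0) →
    ∃ m : Matrix (Fin 2) (Fin 2) k, m.trace = 0 ∧ ∀ g, ψ g = s56g_twRep rb g m - m

/-- `ad⁰(rb) ⊗ det` has no nonzero invariants. -/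
theorem s56g_tw_noInv (h2ne : (2 : k) ≠ 0)
    (habs : rb.toResidualGaloisRep.IsAbsolutelyIrreducible)
    (hTW : s56g_TWHyp rb.toResidualGaloisRep) (m : Matrix (Fin 2) (Fin 2) k) (hm : m.trace = 0)
    (hinv : ∀ g, s56g_twRep rb g m = m) : m = 0 := by
  by_contra hm0
  refine s56g_fr_noSemi rb habs hTW m ?_ (fun g => ⟨(rb g).det, ?_⟩)
  · rintro ⟨c, hc⟩
    rw [hc, Matrix.trace_smul, Matrix.trace_one, Fintype.card_fin, smul_eq_mul] at hm
    have hc0 : c = 0 := by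
      rcases mul_eq_zero.mp hm with h | h
      · exact h
      · exact absurd (by exact_mod_cast h) h2ne
    exact hm0 (by rw [hc, hc0, zero_smul])
  · have h := hinv g
    rw [s56g_twRep_apply] at h
    have h2 := congrArg (fun X => X * rb g) h
    simp only [Matrix.smul_mul, mul_assoc, s56g_fr_inv_mul, mul_one] at h2
    exact h2.symm

/-- the trace-zero matrix `B = T - (tr T / 2)` attached to a regular `T` is not in the image of
`Ad T - 1`; more precisely `tr (B * (T m T' - m)) = 0` for all `m` while `tr (B * B) ≠ 0`. -/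
theorem s56g_regular_functional (h2ne : (2 : k) ≠ 0) (T T' : Matrix (Fin 2) (Fin 2) k)
    (hT'T : T' * T = 1) {α β : k} (hαβ : α ≠ β)
    (hch : T.charpoly = (X - C α) * (X - C β)) :
    ∃ B : Matrix (Fin 2) (Fin 2) k, B.trace = 0 ∧ (∀ m, (B * (T * m * T' - m)).trace = 0) ∧
      (B * B).trace ≠ 0 := by
  have hexp : (X - C α : k[X]) * (X - C β) = X ^ 2 - C (α + β) * X + C (α * β) := by
    rw [C_add, C_mul]; ring
  rw [Matrix.charpoly_fin_two, hexp] at hch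
  obtain ⟨htr, hdet⟩ := s56g_quad_coeff hch
  set s : k := (α + β) / 2 with hs
  refine ⟨T - s • (1 : Matrix (Fin 2) (Fin 2) k), ?_, ?_, ?_⟩
  · rw [Matrix.trace_sub, Matrix.trace_smul, Matrix.trace_one, Fintype.card_fin, htr, hs,
      smul_eq_mul]
    push_cast
    field_simp
    ring
  · intro m
    have hcomm : (T - s • (1 : Matrix (Fin 2) (Fin 2) k)) * T
        = T * (T - s • (1 : Matrix (Fin 2) (Fin 2) k)) := by
      rw [sub_mul, mul_sub, Matrix.smul_mul, Matrix.mul_smul, one_mul, mul_one]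
    rw [mul_sub, Matrix.trace_sub, sub_eq_zero]
    have e1 : (T - s • (1 : Matrix (Fin 2) (Fin 2) k)) * (T * m * T')
        = ((T - s • (1 : Matrix (Fin 2) (Fin 2) k)) * T * m) * T' := by
      simp only [mul_assoc]
    rw [e1, Matrix.trace_mul_comm, hcomm]
    have e2 : T' * (T * (T - s • (1 : Matrix (Fin 2) (Fin 2) k)) * m)
        = (T' * T) * ((T - s • (1 : Matrix (Fin 2) (Fin 2) k)) * m) := by
      simp only [mul_assoc]
    rw [e2, hT'T, one_mul]
  · rw [Matrix.trace_fin_two, Matrix.det_fin_two] at *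
    simp only [Matrix.mul_apply, Fin.sum_univ_two, Matrix.sub_apply, Matrix.smul_apply,
      Matrix.one_apply_eq, Matrix.one_apply_ne, smul_eq_mul, mul_one, mul_zero, sub_zero, ne_eq,
      Fin.isValue, one_ne_zero, zero_ne_one, not_false_eq_true]
    intro h0
    apply hαβ
    have h4 : (α - β) ^ 2 = 0 := by
      have e1 : (α - β) ^ 2 = (T 0 0 + T 1 1) ^ 2 - 4 * (T 0 0 * T 1 1 - T 0 1 * T 1 0) := by
        rw [htr, hdet]; ring
      have e2 : (2 : k) * ((T 0 0 - s) * (T 0 0 - s) + T 0 1 * T 1 0 +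
          (T 1 0 * T 0 1 + (T 1 1 - s) * (T 1 1 - s))) =
          (T 0 0 + T 1 1) ^ 2 - 4 * (T 0 0 * T 1 1 - T 0 1 * T 1 0) := by
        have hs2 : 2 * s = T 0 0 + T 1 1 := by rw [hs, htr]; field_simp
        have : s = (T 0 0 + T 1 1) / 2 := by rw [← hs2]; field_simp
        rw [this]; field_simp; ring
      rw [e1, ← e2, h0, mul_zero]
    exact sub_eq_zero.1 ((pow_eq_zero_iff (two_ne_zero)).1 h4)

/-- **the selection step.**  A trace-zero cocycle `ψ` for `ad⁰(rb) ⊗ det` which is not a coboundary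
is detected by a regular element of `G_{ℚ(ζ_{p^(n+1)})}`. -/
theorem s56g_select (p : ℕ) (hp : p ≠ 0) (n : ℕ) (h2ne : (2 : k) ≠ 0)
    (habs : rb.toResidualGaloisRep.IsAbsolutelyIrreducible)
    (hTW : s56g_TWHyp rb.toResidualGaloisRep)
    (hsplit : ∀ σ : GQ, ∃ α β : k, (rb σ).charpoly = (X - C α) * (X - C β))
    (hdet1 : ∀ σ ∈ s56g_cyc p, (rb σ).det = 1) (hvan : s56g_H1Van rb)
    (ψ : GQ → Matrix (Fin 2) (Fin 2) k) (htr : ∀ g, (ψ g).trace = 0)
    (hψ : s56g_IsCoc (s56g_twRep rb) ψ)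
    (hnot : ¬ ∃ m : Matrix (Fin 2) (Fin 2) k, m.trace = 0 ∧ ∀ g, ψ g = s56g_twRep rb g m - m) :
    ∃ σ₀ ∈ s56g_cyc (p ^ (n + 1)),
      (∃ α β : k, α ≠ β ∧ (rb σ₀).charpoly = (X - C α) * (X - C β)) ∧
      ∀ m : Matrix (Fin 2) (Fin 2) k, ψ σ₀ ≠ s56g_twRep rb σ₀ m - m := by
  classical
  have hM0 : p ^ (n + 1) ≠ 0 := pow_ne_zero _ hp
  set N₀ : Subgroup GQ := rb.toMonoidHom.ker with hN₀def
  have hmemN₀ : ∀ x : GQ, x ∈ N₀ ↔ rb x = 1 := fun x => MonoidHom.mem_ker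
  set Cn : Subgroup GQ := s56g_cyc (p ^ (n + 1)) with hCn
  set H : Subgroup GQ := N₀ ⊓ Cn with hH
  have hN₀triv : ∀ x ∈ N₀, s56g_twRep rb x = 1 :=
    fun x hx => s56g_twRep_of_eq_one rb ((hmemN₀ x).1 hx)
  have hN₀conj : ∀ (g : GQ), ∀ x ∈ N₀, g * x * g⁻¹ ∈ N₀ := by
    intro g x hx
    rw [hmemN₀] at hx ⊢
    rw [rb.map_mul, rb.map_mul, hx, mul_one, s56g_fr_mul_inv]
  have hcomm : ∀ g : GQ, ∀ x ∈ N₀, x⁻¹ * (g * x * g⁻¹) ∈ H := by
    intro g x hx
    refine ⟨N₀.mul_mem (N₀.inv_mem hx) (hN₀conj g x hx), ?_⟩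
    have h1 : x⁻¹ * (g * x * g⁻¹) = x⁻¹ * g * x⁻¹⁻¹ * g⁻¹ := by group
    rw [h1]
    exact s56g_cyc_comm _ hM0 x⁻¹ g
  have hHconj : ∀ (g : GQ), ∀ h ∈ H, g * h * g⁻¹ ∈ H := by
    intro g h hh
    have h1 : g * h * g⁻¹ = h * (h⁻¹ * (g * h * g⁻¹)) := by group
    rw [h1]
    exact H.mul_mem hh (hcomm g h hh.1)
  -- Step A: `ψ` does not vanish on `H`
  obtain ⟨h₀, hh₀, hψh₀⟩ : ∃ h₀ ∈ H, ψ h₀ ≠ 0 := by
    by_contra hcon
    push Not at hcon
    have hvanN₀ := s56g_coc_vanish hψ N₀ H hN₀triv hcon hcomm (fun m => m.trace = 0) htr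
      (fun m hm hinv => s56g_tw_noInv rb h2ne habs hTW m hm hinv)
    exact hnot (hvan ψ htr hψ (fun g hg => hvanN₀ g ((hmemN₀ g).2 hg)))
  -- Step B: the `k`-span of `ψ(H)` is all of `ad⁰`
  set W : Submodule k (Matrix (Fin 2) (Fin 2) k) := Submodule.span k (ψ '' (H : Set GQ)) with hW
  have hW0 : ∀ A ∈ W, A.trace = 0 := by
    intro A hA
    refine Submodule.span_induction (p := fun A _ => A.trace = 0) ?_ ?_ ?_ ?_ hA
    · rintro _ ⟨h, _, rfl⟩
      exact htr h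
    · exact Matrix.trace_zero _ _
    · intro x y _ _ hx hy
      rw [Matrix.trace_add, hx, hy, add_zero]
    · intro c x _ hx
      rw [Matrix.trace_smul, hx, smul_zero]
  have hst : ∀ g : GQ, ∀ A ∈ W, rb g * A * rb g⁻¹ ∈ W := by
    intro g A hA
    refine Submodule.span_induction (p := fun A _ => rb g * A * rb g⁻¹ ∈ W) ?_ ?_ ?_ ?_ hA
    · rintro _ ⟨h, hh, rfl⟩
      have h1 : ψ (g * h * g⁻¹) = s56g_twRep rb g (ψ h) :=
        s56g_coc_conj hψ (hN₀triv h hh.1) g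
      have h2 : rb g * ψ h * rb g⁻¹ = ((rb g).det)⁻¹ • ψ (g * h * g⁻¹) := by
        rw [h1, s56g_twRep_apply, smul_smul, inv_mul_cancel₀ (s56g_det_ne_zero rb g), one_smul]
      rw [h2]
      exact W.smul_mem _ (Submodule.subset_span ⟨g * h * g⁻¹, hHconj g h hh, rfl⟩)
    · rw [mul_zero, zero_mul]; exact W.zero_mem
    · intro x y _ _ hx hy
      rw [mul_add, add_mul]; exact W.add_mem hx hy
    · intro c x _ hx
      rw [Matrix.mul_smul, Matrix.smul_mul]; exact W.smul_mem c hx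
  have hWall : ∀ A : Matrix (Fin 2) (Fin 2) k, A.trace = 0 → A ∈ W := by
    rcases s56g_fr_ad_irr rb h2ne habs hTW W hW0 hst with h | h
    · exfalso
      apply hψh₀
      have : ψ h₀ ∈ W := Submodule.subset_span ⟨h₀, hh₀, rfl⟩
      rwa [h, Submodule.mem_bot] at this
    · exact h
  -- Step C: a regular element of `Cn`
  obtain ⟨σ₁, hσ₁, α, β, hαβ, hch⟩ :=
    s56g_fr_regular rb h2ne habs hTW hsplit Cn (fun g h => s56g_cyc_comm _ hM0 g h)
  have hσ₁p : σ₁ ∈ s56g_cyc p := by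
    intro ζ hζ
    refine hσ₁ ζ ?_
    rw [pow_succ', pow_mul, hζ, one_pow]
  have hdetσ₁ : (rb σ₁).det = 1 := hdet1 σ₁ hσ₁p
  obtain ⟨B, hBtr, hBU, hBB⟩ := s56g_regular_functional h2ne (rb σ₁) (rb σ₁⁻¹)
    (s56g_fr_inv_mul rb σ₁) hαβ hch
  set U : Submodule k (Matrix (Fin 2) (Fin 2) k) :=
    LinearMap.range (s56g_twRep rb σ₁ - 1) with hU
  have hmemU : ∀ X : Matrix (Fin 2) (Fin 2) k, X ∈ U ↔ ∃ m, X = s56g_twRep rb σ₁ m - m := by
    intro X
    constructor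
    · rintro ⟨m, rfl⟩
      exact ⟨m, rfl⟩
    · rintro ⟨m, rfl⟩
      exact ⟨m, rfl⟩
  have hBnot : B ∉ U := by
    intro hB
    obtain ⟨m, hm⟩ := (hmemU B).1 hB
    apply hBB
    have h1 := hBU m
    rw [s56g_twRep_apply, hdetσ₁, one_smul] at hm
    rw [← hm] at h1
    exact h1
  -- Step D: some `ψ h`, `h ∈ H`, lies outside `U`
  obtain ⟨h, hh, hψh⟩ : ∃ h ∈ H, ψ h ∉ U := by
    by_contra hcon
    push Not at hcon
    have hle : W ≤ U := by
      rw [hW, Submodule.span_le]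
      rintro _ ⟨h, hh, rfl⟩
      exact hcon h hh
    exact hBnot (hle (hWall B hBtr))
  -- Step E: the choice of `σ₀`
  have hrbh : rb h = 1 := (hmemN₀ h).1 hh.1
  have htwh : s56g_twRep rb (h * σ₁) = s56g_twRep rb σ₁ := by
    rw [map_mul, hN₀triv h hh.1, one_mul]
  by_cases hσ : ψ σ₁ ∈ U
  · refine ⟨h * σ₁, Cn.mul_mem hh.2 hσ₁, ⟨α, β, hαβ, ?_⟩, fun m hm => ?_⟩
    · rw [rb.map_mul, hrbh, one_mul]; exact hch
    · apply hψh
      have h1 : ψ (h * σ₁) = ψ h + ψ σ₁ := by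
        rw [hψ h σ₁, hN₀triv h hh.1, Module.End.one_apply]
      rw [h1, htwh] at hm
      have h2 : ψ h = (s56g_twRep rb σ₁ m - m) - ψ σ₁ := by rw [← hm]; abel
      rw [h2]
      exact U.sub_mem ((hmemU _).2 ⟨m, rfl⟩) hσ
  · exact ⟨σ₁, hσ₁, ⟨α, β, hαβ, hch⟩, fun m hm => hσ ((hmemU _).2 ⟨m, hm⟩)⟩

end twisted

end Fermat.Agent.S56
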